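import Mathlib
import Fermat.Prelude.Def_AlgebraicCurve_Correspondence
import Fermat.Agent.MUL.Orig.S24.Bridge
import Fermat.Agent.MUL.Orig.S24.Residue
import Fermat.Agent.MUL.Orig.S24.Decomposition
import Fermat.Agent.MUL.Orig.S24.FFDefs
import Fermat.Agent.MUL.F3.DictC.Val

section MergeWrap_Lib_HeckeInputs_Local -- from Lib/HeckeInputs/Local.lean

set_option autoImplicit false
set_option linter.deprecated false
set_option linter.unusedSectionVars false
set_option linter.style.haveILetI false

/-!
# Hecke inputs, local part

`A` is a discrete valuation ring with fraction field `F`, `F'/F` is a finite extension,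
`B` is a Dedekind domain, finite over `A`, with fraction field `F'` (the integral closure of `A`
in `F'`).  We compare the places of `F'` above the place `v` of `F` whose valuation ring is `A`
with the height one primes of `B`.
-/

noncomputable section

open IsDedekindDomain WithZero AlgebraicCurve

namespace Fermat.Agent.HeckeInputs

section DVR

variable {K F F' A B : Type*} [Field K] [Field F] [Field F']
  [Algebra K F] [Algebra K F'] [Algebra F F'] [IsScalarTower K F F'] [FiniteDimensional F F']
  [CommRing A] [IsDomain A] [IsDiscreteValuationRing A] [Algebra A F] [IsFractionRing A F]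
  [Algebra A F'] [IsScalarTower A F F'] [Algebra K A] [IsScalarTower K A F]
  [CommRing B] [IsDedekindDomain B] [Algebra A B] [Algebra B F'] [IsFractionRing B F']
  [IsScalarTower A B F'] [Module.Finite A B] [Module.IsTorsionFree A B]
  [Algebra K B] [IsScalarTower K B F']

variable (v : Place K F)
  (hv : ∀ x : F, x ∈ v.toValuationSubring ↔ x ∈ Set.range (algebraMap A F))

include hv in
theorem hi_algebraMap_mem (a : A) : algebraMap A F a ∈ v.toValuationSubring :=
  (hv _).mpr ⟨a, rfl⟩

/-- the unique height one prime of the discrete valuation ring `A`. -/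
def hi_v₀ (A : Type*) [CommRing A] [IsDomain A] [IsDiscreteValuationRing A] :
    HeightOneSpectrum A :=
  IsDiscreteValuationRing.maximalIdeal A

@[simp]
theorem hi_v₀_asIdeal : (hi_v₀ A).asIdeal = IsLocalRing.maximalIdeal A := rfl

theorem hi_heightOneSpectrum_eq (P₀ : HeightOneSpectrum A) : P₀ = hi_v₀ A := by
  apply HeightOneSpectrum.ext
  rw [hi_v₀_asIdeal]
  exact IsLocalRing.eq_maximalIdeal P₀.isMaximal

include hv in
/-- `v` is the place attached to the maximal ideal of `A`. -/
theorem hi_v_eq : v = Place.ofHeightOneSpectrum (K := K) (F := F) (hi_v₀ A) := by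
  obtain ⟨P₀, hP₀⟩ := Fermat.Agent.S24Bridge.exists_eq_ofHeightOneSpectrum (B := A) v
    (hi_algebraMap_mem v hv)
  rw [hP₀, hi_heightOneSpectrum_eq P₀]

include hv in
theorem hi_ord_eq (f : F) : v.ord f = -(WithZero.log ((hi_v₀ A).valuation F f)) := by
  conv_lhs => rw [hi_v_eq v hv]
  exact Fermat.Agent.S24Bridge.ord_ofHeightOneSpectrum (K := K) (F := F) (hi_v₀ A) f

/-- every height one prime of `B` lies over the maximal ideal of `A`. -/
theorem hi_liesOver (P : HeightOneSpectrum B) :
    P.asIdeal.LiesOver (IsLocalRing.maximalIdeal A) := by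
  constructor
  have hprime : (P.asIdeal.comap (algebraMap A B)).IsPrime := Ideal.comap_isPrime _ _
  have hne : P.asIdeal.comap (algebraMap A B) ≠ ⊥ := by
    haveI : Algebra.IsIntegral A B := Algebra.IsIntegral.of_finite A B
    intro h
    exact P.ne_bot (Ideal.eq_bot_of_comap_eq_bot h)
  have hmax : (P.asIdeal.comap (algebraMap A B)).IsMaximal :=
    Ring.DimensionLEOne.maximalOfPrime hne hprime
  exact (IsLocalRing.eq_maximalIdeal hmax).symm

/-- the place of `F'` attached to a height one prime of `B`. -/
abbrev hi_place (K F' : Type*) {B : Type*} [Field K] [Field F'] [Algebra K F']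
    [CommRing B] [IsDedekindDomain B] [Algebra B F'] [IsFractionRing B F']
    [Algebra K B] [IsScalarTower K B F'] (P : HeightOneSpectrum B) : Place K F' :=
  Place.ofHeightOneSpectrum (K := K) (F := F') P

variable (A) in
include hv in
/-- the place attached to a height one prime of `B` restricts to `v`. -/
theorem hi_restrict_place (P : HeightOneSpectrum B) : (hi_place K F' P).restrict F = v := by
  apply Place.ext
  symm
  apply ValuationSubring.eq_of_le_of_ne_top _ _ ((hi_place K F' P).restrict F).ne_top'
  intro x hx
  obtain ⟨a, rfl⟩ := (hv x).mp hx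
  rw [Place.restrict_toValuationSubring, ValuationSubring.mem_comap]
  show P.valuation F' _ ≤ 1
  rw [← IsScalarTower.algebraMap_apply A F F', IsScalarTower.algebraMap_apply A B F']
  exact P.valuation_le_one _

variable (A) in
include hv in
/-- every place of `F'` above `v` is attached to a height one prime of `B`. -/
theorem hi_exists_place (w : Place K F') (hw : w.restrict F = v) :
    ∃ P : HeightOneSpectrum B, w = hi_place K F' P := by
  apply Fermat.Agent.S24Bridge.exists_eq_ofHeightOneSpectrum (B := B) w
  intro b
  have hR : ∀ a : A, algebraMap A F' a ∈ w.toValuationSubring := by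
    intro a
    have h1 : algebraMap A F a ∈ (w.restrict F).toValuationSubring := by
      rw [hw]
      exact hi_algebraMap_mem v hv a
    rw [Place.mem_restrict_iff, ← IsScalarTower.algebraMap_apply A F F'] at h1
    exact h1
  haveI : Algebra.IsIntegral A B := Algebra.IsIntegral.of_finite A B
  apply Fermat.Agent.S24Bridge.mem_of_isIntegral (R := A) w hR
  have hb : IsIntegral A b := Algebra.IsIntegral.isIntegral b
  exact hb.map (IsScalarTower.toAlgHom A B F')

include hv in
/-- the order at the place attached to `P` of an element of `F`. -/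
theorem hi_ord_algebraMap (P : HeightOneSpectrum B) (f : F) :
    (hi_place K F' P).ord (algebraMap F F' f) =
      ((IsLocalRing.maximalIdeal A).ramificationIdx' P.asIdeal : ℤ) * v.ord f := by
  haveI : P.asIdeal.LiesOver (hi_v₀ A).asIdeal := hi_liesOver P
  rw [hi_ord_eq v hv, Fermat.Agent.S24Bridge.ord_ofHeightOneSpectrum,
    ← HeightOneSpectrum.valuation_liesOver F' (hi_v₀ A) P f, hi_v₀_asIdeal]
  rcases eq_or_ne f 0 with rfl | hf
  · have hpos : (IsLocalRing.maximalIdeal A).ramificationIdx' P.asIdeal ≠ 0 := by
      haveI : P.asIdeal.LiesOver (IsLocalRing.maximalIdeal A) := hi_liesOver P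
      exact Ideal.IsDedekindDomain.ramificationIdx'_ne_zero_of_liesOver P.asIdeal
        (IsDiscreteValuationRing.not_a_field A)
    simp [zero_pow hpos]
  · have h0 : (hi_v₀ A).valuation F f ≠ 0 := (Valuation.ne_zero_iff _).mpr hf
    rw [WithZero.log_pow]
    simp

include hv in
/-- the ramification index of the Prelude agrees with the one of Mathlib. -/
theorem hi_ramificationIndex_eq (P : HeightOneSpectrum B) :
    (hi_place K F' P).ramificationIndex F =
      (IsLocalRing.maximalIdeal A).ramificationIdx' P.asIdeal := by
  obtain ⟨π, hπ⟩ := IsDiscreteValuationRing.exists_irreducible v.toValuationSubring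
  have h1 : v.ord (π : F) = 1 := v.ord_coe_irreducible hπ
  have h2 := (hi_place K F' P).ord_restrict (F := F) (π : F)
  rw [hi_restrict_place A v hv P, h1, mul_one, hi_ord_algebraMap v hv P, h1, mul_one] at h2
  exact_mod_cast h2.symm

/-- the inertia degrees (in the sense of Mathlib) are `1` if the residue field of `A` is `K`. -/
theorem hi_inertiaDeg'_eq_one [IsAlgClosed K]
    (hres : Function.Surjective
      ((Ideal.Quotient.mk (IsLocalRing.maximalIdeal A)).comp (algebraMap K A)))
    (P : HeightOneSpectrum B) :
    (IsLocalRing.maximalIdeal A).inertiaDeg' P.asIdeal = 1 := by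
  haveI : P.asIdeal.LiesOver (IsLocalRing.maximalIdeal A) := hi_liesOver P
  haveI : P.asIdeal.IsMaximal := P.isMaximal
  rw [Ideal.inertiaDeg'_eq_inertiaDeg]
  exact Fermat.Agent.S24Dec.inertiaDeg_eq_one_of_isAlgClosed (K := K)
    (IsLocalRing.maximalIdeal A) hres P.asIdeal

theorem hi_maximalIdeal_ne_bot : IsLocalRing.maximalIdeal A ≠ ⊥ :=
  IsDiscreteValuationRing.not_a_field A

/-- the height one prime attached to an element of `primesOverFinset`. -/
def hi_toH (P : Ideal B)
    (hP : P ∈ IsDedekindDomain.primesOverFinset (IsLocalRing.maximalIdeal A) B) :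
    HeightOneSpectrum B :=
  ⟨P, ((IsDedekindDomain.mem_primesOverFinset_iff hi_maximalIdeal_ne_bot B).mp hP).1,
    Ideal.ne_bot_of_mem_primesOver hi_maximalIdeal_ne_bot
      ((IsDedekindDomain.mem_primesOverFinset_iff hi_maximalIdeal_ne_bot B).mp hP)⟩

theorem hi_mem_primesOverFinset (P : HeightOneSpectrum B) :
    P.asIdeal ∈ IsDedekindDomain.primesOverFinset (IsLocalRing.maximalIdeal A) B :=
  (IsDedekindDomain.mem_primesOverFinset_iff hi_maximalIdeal_ne_bot B).mpr
    ⟨P.isPrime, hi_liesOver P⟩

theorem hi_place_toH_injective :
    Function.Injective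
      (fun P : {P // P ∈ IsDedekindDomain.primesOverFinset (IsLocalRing.maximalIdeal A) B} =>
        hi_place K F' (hi_toH P.1 P.2)) := by
  intro P Q hPQ
  have := Fermat.Agent.S24Bridge.ofHeightOneSpectrum_injective (K := K) (F := F') hPQ
  exact Subtype.ext (congrArg HeightOneSpectrum.asIdeal this)

variable (A B) in
include hv in
/-- the fibre above `v`, in terms of the primes of `B`. -/
theorem hi_fiber_eq [HasPrincipalDivisors K F'] [DecidableEq (Place K F')] :
    v.fiber F' =
      (IsDedekindDomain.primesOverFinset (IsLocalRing.maximalIdeal A) B).attach.image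
        (fun P => hi_place K F' (hi_toH P.1 P.2)) := by
  ext w
  rw [Place.mem_fiber, Finset.mem_image]
  constructor
  · intro hw
    obtain ⟨Q, hQ⟩ := hi_exists_place (B := B) A v hv w hw
    exact ⟨⟨Q.asIdeal, hi_mem_primesOverFinset Q⟩, Finset.mem_attach _ _, hQ.symm⟩
  · rintro ⟨⟨P, hP⟩, -, rfl⟩
    exact hi_restrict_place A v hv _

variable (A B) in
include hv B in
/-- the sum of the ramification indices above `v` is the degree. -/
theorem hi_sum_ramificationIndex [IsAlgClosed K] [HasPrincipalDivisors K F']
    (hres : Function.Surjective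
      ((Ideal.Quotient.mk (IsLocalRing.maximalIdeal A)).comp (algebraMap K A))) :
    ∑ w ∈ v.fiber F', (w.ramificationIndex F : ℤ) = (Module.finrank F F' : ℤ) := by
  classical
  have hp0 := hi_maximalIdeal_ne_bot (A := A)
  have hsum := Ideal.sum_ramification_inertia B F F' hp0
  rw [hi_fiber_eq A B v hv, Finset.sum_image (fun P _ Q _ h => hi_place_toH_injective h),
    ← hsum, Nat.cast_sum,
    ← Finset.sum_attach (IsDedekindDomain.primesOverFinset (IsLocalRing.maximalIdeal A) B)]
  refine Finset.sum_congr rfl fun P _ => ?_
  have h1 : (IsLocalRing.maximalIdeal A).inertiaDeg' P.1 = 1 :=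
    hi_inertiaDeg'_eq_one hres (hi_toH P.1 P.2)
  rw [hi_ramificationIndex_eq v hv, h1, mul_one]
  rfl

end DVR

end Fermat.Agent.HeckeInputs
end
end MergeWrap_Lib_HeckeInputs_Local

section MergeWrap_Lib_HeckeInputs_Norm -- from Lib/HeckeInputs/Norm.lean

set_option autoImplicit false
set_option linter.deprecated false
set_option linter.unusedSectionVars false
set_option linter.style.haveILetI false

/-!
# Hecke inputs, local part: the norm formula

Same setting as in `Local.lean`; moreover `B` is the integral closure of `A` in `F'`.
For `f : F'` nonzero, `ord_v (N f) = ∑_{w ∣ v} ord_w f`.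
-/

noncomputable section

open IsDedekindDomain WithZero AlgebraicCurve

namespace Fermat.Agent.HeckeInputs

section DVR

variable {K F F' A B : Type*} [Field K] [Field F] [Field F']
  [Algebra K F] [Algebra K F'] [Algebra F F'] [IsScalarTower K F F'] [FiniteDimensional F F']
  [CommRing A] [IsDomain A] [IsDiscreteValuationRing A] [Algebra A F] [IsFractionRing A F]
  [Algebra A F'] [IsScalarTower A F F'] [Algebra K A] [IsScalarTower K A F]
  [CommRing B] [IsDedekindDomain B] [Algebra A B] [Algebra B F'] [IsFractionRing B F']
  [IsScalarTower A B F'] [Module.Finite A B] [Module.IsTorsionFree A B]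
  [Algebra K B] [IsScalarTower K B F']

/-- the sum of the multiplicities of the primes above the maximal ideal of `A`. -/
def hi_totalCount (A : Type*) {B : Type*} [CommRing A] [IsDomain A] [IsDiscreteValuationRing A]
    [CommRing B] [IsDedekindDomain B] [Algebra A B] (I : Ideal B) : ℕ :=
  ∑ P ∈ IsDedekindDomain.primesOverFinset (IsLocalRing.maximalIdeal A) B,
    (Associates.mk P).count (Associates.mk I).factors

theorem hi_irreducible_mk (P : Ideal B)
    (hP : P ∈ IsDedekindDomain.primesOverFinset (IsLocalRing.maximalIdeal A) B) :
    Irreducible (Associates.mk P) := by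
  rw [Associates.irreducible_mk]
  exact (hi_toH P hP).irreducible

theorem hi_totalCount_one : hi_totalCount A (1 : Ideal B) = 0 := by
  unfold hi_totalCount
  refine Finset.sum_eq_zero fun P hP => ?_
  rw [Associates.mk_one, Associates.factors_one]
  exact Associates.count_zero (hi_irreducible_mk P hP)

theorem hi_totalCount_mul {I J : Ideal B} (hI : I ≠ 0) (hJ : J ≠ 0) :
    hi_totalCount A (I * J) = hi_totalCount A I + hi_totalCount A J := by
  unfold hi_totalCount
  rw [← Finset.sum_add_distrib]
  refine Finset.sum_congr rfl fun P hP => ?_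
  rw [Associates.mk_mul_mk.symm]
  exact Associates.count_mul (Associates.mk_ne_zero.mpr hI) (Associates.mk_ne_zero.mpr hJ)
    (hi_irreducible_mk P hP)

theorem hi_totalCount_prime (Q : HeightOneSpectrum B) :
    hi_totalCount A Q.asIdeal = 1 := by
  classical
  unfold hi_totalCount
  rw [Finset.sum_eq_single_of_mem Q.asIdeal (hi_mem_primesOverFinset Q)]
  · exact Associates.count_self (Associates.irreducible_mk.mpr Q.irreducible)
  · intro P hP hPQ
    refine Associates.count_eq_zero_of_ne (hi_irreducible_mk P hP)
      (Associates.irreducible_mk.mpr Q.irreducible) ?_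
    intro h
    apply hPQ
    rw [Associates.mk_eq_mk_iff_associated, associated_iff_eq] at h
    exact h

/-- the relative norm of a height one prime is the maximal ideal. -/
theorem hi_relNorm_prime [IsAlgClosed K] [PerfectField (FractionRing A)]
    (hres : Function.Surjective
      ((Ideal.Quotient.mk (IsLocalRing.maximalIdeal A)).comp (algebraMap K A)))
    (Q : HeightOneSpectrum B) :
    Ideal.relNorm A Q.asIdeal = IsLocalRing.maximalIdeal A := by
  haveI : Q.asIdeal.LiesOver (IsLocalRing.maximalIdeal A) := hi_liesOver Q
  haveI : Q.asIdeal.IsMaximal := Q.isMaximal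
  rw [Ideal.relNorm_eq_pow_of_isMaximal Q.asIdeal (IsLocalRing.maximalIdeal A),
    Fermat.Agent.S24Dec.inertiaDeg_eq_one_of_isAlgClosed (K := K)
      (IsLocalRing.maximalIdeal A) hres Q.asIdeal, pow_one]

/-- the relative norm of a nonzero ideal of `B`. -/
theorem hi_relNorm_eq [IsAlgClosed K] [PerfectField (FractionRing A)]
    (hres : Function.Surjective
      ((Ideal.Quotient.mk (IsLocalRing.maximalIdeal A)).comp (algebraMap K A)))
    (I : Ideal B) (hI : I ≠ 0) :
    Ideal.relNorm A I = IsLocalRing.maximalIdeal A ^ hi_totalCount A I := by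
  induction I using UniqueFactorizationMonoid.induction_on_prime with
  | h₁ => exact absurd rfl hI
  | h₂ x hx =>
    obtain rfl : x = 1 := by rwa [Ideal.isUnit_iff, ← Ideal.one_eq_top] at hx
    rw [map_one, hi_totalCount_one, pow_zero]
  | h₃ a p ha hp ih =>
    have hpQ : p ≠ ⊥ := hp.ne_zero
    have hprime : p.IsPrime := Ideal.isPrime_of_prime hp
    let Q : HeightOneSpectrum B := ⟨p, hprime, hpQ⟩
    have h1 : Ideal.relNorm A p = IsLocalRing.maximalIdeal A := hi_relNorm_prime hres Q
    have h2 : hi_totalCount A p = 1 := hi_totalCount_prime Q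
    rw [map_mul, ih ha, h1, hi_totalCount_mul hp.ne_zero ha, h2, pow_add, pow_one]

variable (v : Place K F)
  (hv : ∀ x : F, x ∈ v.toValuationSubring ↔ x ∈ Set.range (algebraMap A F))

include hv in
/-- the order at `v` of an element of `A` generating the ideal `𝔪 ^ n`. -/
theorem hi_ord_of_span_eq (a : A) (n : ℕ)
    (ha : Ideal.span {a} = IsLocalRing.maximalIdeal A ^ n) :
    v.ord (algebraMap A F a) = n := by
  have ha0 : a ≠ 0 := by
    rintro rfl
    rw [Ideal.span_singleton_eq_bot.mpr rfl] at ha
    exact pow_ne_zero n (hi_maximalIdeal_ne_bot (A := A)) ha.symm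
  conv_lhs => rw [hi_v_eq v hv]
  have hirr : Irreducible (Associates.mk (IsLocalRing.maximalIdeal A)) :=
    Associates.irreducible_mk.mpr (hi_v₀ A).irreducible
  rw [Fermat.Agent.S24Bridge.ord_algebraMap_eq_count (K := K) (F := F) (hi_v₀ A) a ha0, ha,
    hi_v₀_asIdeal, Associates.mk_pow,
    Associates.count_pow (Associates.mk_ne_zero.mpr (hi_maximalIdeal_ne_bot (A := A))) hirr,
    Associates.count_self hirr, mul_one]

variable (A) in
include hv in
/-- the sum of the orders above `v` of an element of `B`. -/
theorem hi_sum_ord_algebraMap [HasPrincipalDivisors K F'] (b : B) (hb : b ≠ 0) :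
    ∑ w ∈ v.fiber F', w.ord (algebraMap B F' b) = (hi_totalCount A (Ideal.span {b}) : ℤ) := by
  classical
  rw [hi_fiber_eq A B v hv, Finset.sum_image (fun P _ Q _ h => hi_place_toH_injective h)]
  unfold hi_totalCount
  rw [Nat.cast_sum,
    ← Finset.sum_attach (IsDedekindDomain.primesOverFinset (IsLocalRing.maximalIdeal A) B)]
  refine Finset.sum_congr rfl fun P _ => ?_
  exact Fermat.Agent.S24Bridge.ord_algebraMap_eq_count (K := K) (F := F') (hi_toH P.1 P.2) b hb

variable (A) in
include hv in
/-- the norm formula for elements of `B`. -/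
theorem hi_ord_norm_algebraMap [IsAlgClosed K] [PerfectField (FractionRing A)]
    [HasPrincipalDivisors K F'] [IsIntegralClosure B A F']
    (hres : Function.Surjective
      ((Ideal.Quotient.mk (IsLocalRing.maximalIdeal A)).comp (algebraMap K A)))
    (b : B) (hb : b ≠ 0) :
    v.ord (Algebra.norm F (algebraMap B F' b)) = ∑ w ∈ v.fiber F', w.ord (algebraMap B F' b) := by
  haveI : Algebra.IsIntegral A B := Algebra.IsIntegral.of_finite A B
  have hI : Ideal.span {b} ≠ (0 : Ideal B) := by
    rw [Ne, Ideal.zero_eq_bot, Ideal.span_singleton_eq_bot]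
    exact hb
  rw [hi_sum_ord_algebraMap A v hv b hb, ← Algebra.algebraMap_intNorm (A := A) (K := F)]
  apply hi_ord_of_span_eq v hv
  rw [← Ideal.relNorm_singleton, hi_relNorm_eq hres _ hI]

variable (A B) in
include hv B in
/-- the norm formula: `ord_v (N f) = ∑_{w ∣ v} ord_w f`. -/
theorem hi_ord_norm [IsAlgClosed K] [PerfectField (FractionRing A)]
    [HasPrincipalDivisors K F'] [IsIntegralClosure B A F']
    (hres : Function.Surjective
      ((Ideal.Quotient.mk (IsLocalRing.maximalIdeal A)).comp (algebraMap K A)))
    (f : F') (hf : f ≠ 0) :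
    v.ord (Algebra.norm F f) = ∑ w ∈ v.fiber F', w.ord f := by
  obtain ⟨b₁, b₂, hb₂, rfl⟩ := IsFractionRing.div_surjective (A := B) f
  have hb₂0 : b₂ ≠ 0 := nonZeroDivisors.ne_zero hb₂
  have hb₁0 : b₁ ≠ 0 := by
    rintro rfl
    simp at hf
  have h1 : algebraMap B F' b₁ ≠ 0 := by
    rwa [Ne, map_eq_zero_iff _ (IsFractionRing.injective B F')]
  have h2 : algebraMap B F' b₂ ≠ 0 := by
    rwa [Ne, map_eq_zero_iff _ (IsFractionRing.injective B F')]
  have hn1 : Algebra.norm F (algebraMap B F' b₁) ≠ 0 := Algebra.norm_ne_zero_iff.mpr h1
  have hn2 : Algebra.norm F (algebraMap B F' b₂) ≠ 0 := Algebra.norm_ne_zero_iff.mpr h2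
  have hinv : Algebra.norm F (algebraMap B F' b₂)⁻¹ = (Algebra.norm F (algebraMap B F' b₂))⁻¹ := by
    apply eq_inv_of_mul_eq_one_left
    rw [← map_mul, inv_mul_cancel₀ h2, map_one]
  rw [div_eq_mul_inv, map_mul, hinv, v.ord_mul hn1 (inv_ne_zero hn2), v.ord_inv,
    hi_ord_norm_algebraMap A v hv hres b₁ hb₁0, hi_ord_norm_algebraMap A v hv hres b₂ hb₂0,
    ← sub_eq_add_neg, ← Finset.sum_sub_distrib]
  refine Finset.sum_congr rfl fun w _ => ?_
  rw [w.ord_mul h1 (inv_ne_zero h2), w.ord_inv, sub_eq_add_neg]

end DVR

section Pushforward

variable {K F F' : Type*} [Field K] [Field F] [Field F']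
  [Algebra K F] [Algebra K F'] [Algebra F F'] [IsScalarTower K F F']
  [Algebra.IsIntegral F F'] [HasPrincipalDivisors K F']

/-- the value of the push forward of a divisor, as a sum over the fibre. -/
theorem hi_pushforward_apply (D : Divisor K F') (v : Place K F) :
    Divisor.pushforward F D v = ∑ w ∈ v.fiber F', D w * (w.inertiaDeg F : ℤ) := by
  classical
  rw [Divisor.pushforward_apply, ← Finset.sum_filter]
  have h1 : ∑ w ∈ v.fiber F', D w * (w.inertiaDeg F : ℤ) =
      ∑ w ∈ (v.fiber F').filter (fun w => w ∈ D.support), D w * (w.inertiaDeg F : ℤ) := by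
    rw [Finset.sum_filter]
    refine Finset.sum_congr rfl fun w _ => ?_
    split_ifs with h
    · rfl
    · rw [Finsupp.notMem_support_iff.mp h, zero_mul]
  rw [h1]
  refine Finset.sum_congr ?_ fun _ _ => rfl
  ext w
  simp only [Finset.mem_filter, Place.mem_fiber]
  exact and_comm

end Pushforward

end Fermat.Agent.HeckeInputs
end
end MergeWrap_Lib_HeckeInputs_Norm

section MergeWrap_Lib_HeckeInputs_FundId -- from Lib/HeckeInputs/FundId.lean

set_option autoImplicit false
set_option linter.deprecated false
set_option linter.unusedSectionVars false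
set_option linter.style.haveILetI false

/-!
# Hecke inputs: the fundamental identity and the norm formula for function fields

`K` algebraically closed of characteristic zero, `F'/F` a finite extension of function fields in
one variable over `K`.  Then

* `hi_sumRamificationInertia : SumRamificationInertia K F F'`,
* `hi_fundamentalIdentity : FundamentalIdentity K F F'`,
* `hi_pushforwardNormFormula : Divisor.PushforwardNormFormula K F F'`.
-/

noncomputable section

open IsDedekindDomain WithZero AlgebraicCurve Fermat.Agent.S24Diff

namespace Fermat.Agent.HeckeInputs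

section Global

variable {K F F' : Type*} [Field K] [Field F] [Field F']
  [Algebra K F] [Algebra K F'] [Algebra F F'] [IsScalarTower K F F'] [FiniteDimensional F F']
  [IsAlgClosed K] [CharZero K]

/-- every place of a function field over an algebraically closed field has inertia degree `1`. -/
theorem hi_inertiaDeg_eq_one {x' : F'} (h' : IsFunctionFieldOver K F' x') (w : Place K F') :
    w.inertiaDeg F = 1 := by
  have h1 := w.deg_restrict_mul_inertiaDeg (F := F)
  rw [Fermat.Agent.S24Res.deg_eq_one h' w] at h1
  exact Nat.eq_one_of_mul_eq_one_left h1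

section Local

variable (v : Place K F)

/-- the algebra structure of `F'` over the valuation ring of `v`. -/
abbrev hi_algA : Algebra v.toValuationSubring F' :=
  ((algebraMap F F').comp (algebraMap v.toValuationSubring F)).toAlgebra

theorem hi_towerA : letI := hi_algA (F' := F') v; IsScalarTower v.toValuationSubring F F' :=
  letI := hi_algA (F' := F') v
  IsScalarTower.of_algebraMap_eq fun _ => rfl

theorem hi_towerKA : letI := hi_algA (F' := F') v; IsScalarTower K v.toValuationSubring F' :=
  letI := hi_algA (F' := F') v
  IsScalarTower.of_algebraMap_eq fun a => by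
    show algebraMap K F' a = algebraMap F F' ((algebraMap K v.toValuationSubring a : _) : F)
    rw [Place.coe_algebraMap, ← IsScalarTower.algebraMap_apply]

theorem hi_hv (x : F) :
    x ∈ v.toValuationSubring ↔ x ∈ Set.range (algebraMap v.toValuationSubring F) := by
  constructor
  · intro hx
    exact ⟨⟨x, hx⟩, rfl⟩
  · rintro ⟨a, rfl⟩
    exact a.2

theorem hi_hres {x : F} (h : IsFunctionFieldOver K F x) :
    Function.Surjective
      ((Ideal.Quotient.mk (IsLocalRing.maximalIdeal v.toValuationSubring)).comp
        (algebraMap K v.toValuationSubring)) := by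
  intro z
  obtain ⟨f, rfl⟩ := Ideal.Quotient.mk_surjective z
  obtain ⟨a, ha⟩ := Fermat.Agent.S24Res.exists_sub_mem_maximalIdeal h v f
  refine ⟨a, ?_⟩
  rw [RingHom.comp_apply, eq_comm, Ideal.Quotient.eq]
  exact ha

variable (F') in
/-- the sum of the ramification indices above `v` is the degree of `F'/F`. -/
theorem hi_sum_ramificationIndex_global [HasPrincipalDivisors K F'] {x : F}
    (h : IsFunctionFieldOver K F x) :
    ∑ w ∈ v.fiber F', (w.ramificationIndex F : ℤ) = (Module.finrank F F' : ℤ) := by
  letI := hi_algA (F' := F') v
  haveI := hi_towerA (F' := F') v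
  haveI := hi_towerKA (F' := F') v
  haveI : CharZero F := charZero_of_injective_algebraMap (algebraMap K F).injective
  haveI : Algebra.IsSeparable F F' := inferInstance
  haveI : IsDedekindDomain (integralClosure v.toValuationSubring F') :=
    integralClosure.isDedekindDomain v.toValuationSubring F F'
  haveI : IsFractionRing (integralClosure v.toValuationSubring F') F' :=
    integralClosure.isFractionRing_of_finite_extension F F'
  haveI : Module.Finite v.toValuationSubring (integralClosure v.toValuationSubring F') :=
    IsIntegralClosure.finite v.toValuationSubring F F' _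
  haveI : Module.IsTorsionFree v.toValuationSubring (integralClosure v.toValuationSubring F') := by
    haveI : Module.IsTorsionFree v.toValuationSubring F' :=
      .trans_faithfulSMul v.toValuationSubring F F'
    exact IsIntegralClosure.isTorsionFree v.toValuationSubring F'
  exact hi_sum_ramificationIndex v.toValuationSubring (integralClosure v.toValuationSubring F') v
    (hi_hv v) (hi_hres v h)

variable (F') in
/-- the norm formula at `v`. -/
theorem hi_ord_norm_global [HasPrincipalDivisors K F'] {x : F}
    (h : IsFunctionFieldOver K F x) (f : F') (hf : f ≠ 0) :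
    v.ord (Algebra.norm F f) = ∑ w ∈ v.fiber F', w.ord f := by
  letI := hi_algA (F' := F') v
  haveI := hi_towerA (F' := F') v
  haveI := hi_towerKA (F' := F') v
  haveI : CharZero F := charZero_of_injective_algebraMap (algebraMap K F).injective
  haveI : Algebra.IsSeparable F F' := inferInstance
  haveI : IsDedekindDomain (integralClosure v.toValuationSubring F') :=
    integralClosure.isDedekindDomain v.toValuationSubring F F'
  haveI : IsFractionRing (integralClosure v.toValuationSubring F') F' :=
    integralClosure.isFractionRing_of_finite_extension F F'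
  haveI : Module.Finite v.toValuationSubring (integralClosure v.toValuationSubring F') :=
    IsIntegralClosure.finite v.toValuationSubring F F' _
  haveI : Module.IsTorsionFree v.toValuationSubring (integralClosure v.toValuationSubring F') := by
    haveI : Module.IsTorsionFree v.toValuationSubring F' :=
      .trans_faithfulSMul v.toValuationSubring F F'
    exact IsIntegralClosure.isTorsionFree v.toValuationSubring F'
  haveI : CharZero (FractionRing v.toValuationSubring) :=
    charZero_of_injective_algebraMap
      ((algebraMap v.toValuationSubring (FractionRing v.toValuationSubring)).comp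
        (algebraMap K v.toValuationSubring)).injective
  exact hi_ord_norm v.toValuationSubring (integralClosure v.toValuationSubring F') v
    (hi_hv v) (hi_hres v h) f hf

end Local

variable (K F F') in
/-- `∑ e f = n` for a finite extension of function fields. -/
theorem hi_sumRamificationInertia [HasPrincipalDivisors K F'] {x : F} {x' : F'}
    (h : IsFunctionFieldOver K F x) (h' : IsFunctionFieldOver K F' x') :
    SumRamificationInertia K F F' where
  sum_ramificationIndex_mul_inertiaDeg v := by
    rw [← hi_sum_ramificationIndex_global F' v h]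
    refine Finset.sum_congr rfl fun w _ => ?_
    rw [hi_inertiaDeg_eq_one h' w, Nat.cast_one, mul_one]

variable (K F F') in
/-- the fundamental identity for a finite extension of function fields. -/
theorem hi_fundamentalIdentity [HasPrincipalDivisors K F'] {x : F} {x' : F'}
    (h : IsFunctionFieldOver K F x) (h' : IsFunctionFieldOver K F' x') :
    FundamentalIdentity K F F' :=
  haveI := hi_sumRamificationInertia K F F' h h'
  inferInstance

variable (K F F') in
/-- the norm formula for a finite extension of function fields. -/
theorem hi_pushforwardNormFormula [HasPrincipalDivisors K F'] {x : F} {x' : F'}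
    (h : IsFunctionFieldOver K F x) (h' : IsFunctionFieldOver K F' x') :
    Divisor.PushforwardNormFormula K F F' := by
  intro f hf D hD v
  rw [hi_pushforward_apply, hi_ord_norm_global F' v h f hf]
  refine Finset.sum_congr rfl fun w _ => ?_
  rw [hi_inertiaDeg_eq_one h' w, Nat.cast_one, mul_one, hD]

end Global

end Fermat.Agent.HeckeInputs
end
end MergeWrap_Lib_HeckeInputs_FundId
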